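/-
S20 (B): lifting unimodular pairs mod `N` to coprime integer pairs, hence to `SL(2,ℤ)`.
-/
import Mathlib

set_option autoImplicit false

namespace Fermat.Agent.S20

open scoped MatrixGroups

/-- If `gcd(a, c, N) = 1` and `c ≠ 0`, some `a + t N` is coprime to `c`. -/
theorem exists_add_mul_coprime (a c N : ℕ) (hc : c ≠ 0)
    (h : Nat.gcd a (Nat.gcd c N) = 1) : ∃ t : ℕ, Nat.Coprime (a + t * N) c := by
  classical
  refine ⟨∏ p ∈ c.primeFactors.filter (fun p => ¬ p ∣ a), p, ?_⟩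
  set t := ∏ p ∈ c.primeFactors.filter (fun p => ¬ p ∣ a), p with ht
  apply Nat.Coprime.symm
  rw [Nat.coprime_iff_gcd_eq_one]
  by_contra hne
  obtain ⟨p, hp, hpd⟩ := Nat.exists_prime_and_dvd hne
  have hpc : p ∣ c := hpd.trans (Nat.gcd_dvd_left _ _)
  have hpa' : p ∣ a + t * N := hpd.trans (Nat.gcd_dvd_right _ _)
  by_cases hpa : p ∣ a
  · -- then `p ∤ N` and `p ∤ t`
    have hpN : ¬ p ∣ N := fun hpN => by
      have : p ∣ Nat.gcd a (Nat.gcd c N) := Nat.dvd_gcd hpa (Nat.dvd_gcd hpc hpN)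
      rw [h] at this
      exact hp.one_lt.ne' (Nat.dvd_one.mp this)
    have hpt : ¬ p ∣ t := by
      rw [ht, Prime.dvd_finsetProd_iff (Nat.Prime.prime hp)]
      rintro ⟨q, hq, hpq⟩
      rw [Finset.mem_filter, Nat.mem_primeFactors] at hq
      have : p = q := (Nat.prime_dvd_prime_iff_eq hp hq.1.1).mp hpq
      exact hq.2 (this ▸ hpa)
    have : p ∣ t * N := (Nat.dvd_add_right hpa).mp hpa'
    rcases (Nat.Prime.dvd_mul hp).mp this with h1 | h1
    · exact hpt h1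
    · exact hpN h1
  · have hpt : p ∣ t := by
      rw [ht]
      exact Finset.dvd_prod_of_mem _ (by
        rw [Finset.mem_filter, Nat.mem_primeFactors]
        exact ⟨⟨hp, hpc, hc⟩, hpa⟩)
    have : p ∣ a := (Nat.dvd_add_left (hpt.mul_right N)).mp hpa'
    exact hpa this

/-- Every unimodular pair mod `N` lifts to a coprime pair of integers. -/
theorem exists_isCoprime_lift {N : ℕ} [NeZero N] {a c : ZMod N} (h : IsCoprime a c) :
    ∃ a' c' : ℤ, IsCoprime a' c' ∧ (a' : ZMod N) = a ∧ (c' : ZMod N) = c := by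
  -- choose a nonzero natural lift of `c`
  obtain ⟨c₀, hc₀, hcc⟩ : ∃ c₀ : ℕ, c₀ ≠ 0 ∧ (c₀ : ZMod N) = c := by
    by_cases hc : c.val = 0
    · refine ⟨N, NeZero.ne N, ?_⟩
      rw [ZMod.natCast_self]
      exact ((ZMod.val_eq_zero c).mp hc).symm
    · exact ⟨c.val, hc, ZMod.natCast_zmod_val c⟩
  have hgcd : Nat.gcd a.val (Nat.gcd c₀ N) = 1 := by
    obtain ⟨x, y, hxy⟩ := h
    by_contra hne
    obtain ⟨p, hp, hpd⟩ := Nat.exists_prime_and_dvd hne
    have hpa : p ∣ a.val := hpd.trans (Nat.gcd_dvd_left _ _)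
    have hpc : p ∣ c₀ := hpd.trans ((Nat.gcd_dvd_right _ _).trans (Nat.gcd_dvd_left _ _))
    have hpN : p ∣ N := hpd.trans ((Nat.gcd_dvd_right _ _).trans (Nat.gcd_dvd_right _ _))
    -- reduce mod p
    have h1 : (ZMod.castHom hpN (ZMod p)) (x * a + y * c) = 1 := by rw [hxy, map_one]
    have ha0 : (ZMod.castHom hpN (ZMod p)) a = 0 := by
      rw [← ZMod.natCast_zmod_val a, map_natCast]
      exact (ZMod.natCast_eq_zero_iff _ _).mpr hpa
    have hc0 : (ZMod.castHom hpN (ZMod p)) c = 0 := by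
      rw [← hcc, map_natCast]
      exact (ZMod.natCast_eq_zero_iff _ _).mpr hpc
    rw [map_add, map_mul, map_mul, ha0, hc0, mul_zero, mul_zero, add_zero] at h1
    have : Fact p.Prime := ⟨hp⟩
    exact zero_ne_one h1
  obtain ⟨t, ht⟩ := exists_add_mul_coprime a.val c₀ N hc₀ hgcd
  refine ⟨((a.val + t * N : ℕ) : ℤ), (c₀ : ℤ), ?_, ?_, ?_⟩
  · exact Nat.isCoprime_iff_coprime.mpr ht
  · push_cast
    simp
  · push_cast
    exact hcc

/-- Every unimodular pair mod `N` is the first column of an element of `SL(2,ℤ)`. -/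
theorem exists_SL2_col_mod {N : ℕ} [NeZero N] {a c : ZMod N} (h : IsCoprime a c) :
    ∃ g : SL(2, ℤ), ((g 0 0 : ℤ) : ZMod N) = a ∧ ((g 1 0 : ℤ) : ZMod N) = c := by
  obtain ⟨a', c', hcop, ha, hc⟩ := exists_isCoprime_lift h
  obtain ⟨g, hg0, hg1⟩ := hcop.exists_SL2_col 0
  exact ⟨g, by rw [hg0, ha], by rw [hg1, hc]⟩

end Fermat.Agent.S20
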