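/-
S20 (B): the projective line `P¹(ℤ/N)` as a model of `SL(2,ℤ) ⧸ Γ₀(N)`.
-/
import Mathlib
import Fermat.Agent.S20.Cosets.Lift

set_option autoImplicit false

namespace Fermat.Agent.S20

open scoped MatrixGroups
open CongruenceSubgroup Matrix

/-- Unimodular pairs in `(ℤ/N)²`. -/
def Unimod (N : ℕ) : Type := {v : ZMod N × ZMod N // IsCoprime v.1 v.2}

namespace Unimod

variable {N : ℕ}

@[ext] theorem ext {v w : Unimod N} (h1 : v.1.1 = w.1.1) (h2 : v.1.2 = w.1.2) : v = w :=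
  Subtype.ext (Prod.ext h1 h2)

instance : SMul (ZMod N)ˣ (Unimod N) where
  smul u v := ⟨((u : ZMod N) * v.1.1, (u : ZMod N) * v.1.2),
    (isCoprime_mul_unit_left u.isUnit _ _).mpr v.2⟩

@[simp] theorem smul_fst (u : (ZMod N)ˣ) (v : Unimod N) : (u • v).1.1 = (u : ZMod N) * v.1.1 := rfl
@[simp] theorem smul_snd (u : (ZMod N)ˣ) (v : Unimod N) : (u • v).1.2 = (u : ZMod N) * v.1.2 := rfl

instance : MulAction (ZMod N)ˣ (Unimod N) where
  one_smul v := by ext <;> simp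
  mul_smul u u' v := by ext <;> simp [mul_assoc]

/-- The cross-product criterion for two unimodular pairs to be proportional. -/
theorem exists_smul_eq_iff (v w : Unimod N) :
    (∃ u : (ZMod N)ˣ, u • v = w) ↔ v.1.1 * w.1.2 = v.1.2 * w.1.1 := by
  constructor
  · rintro ⟨u, rfl⟩
    simp only [smul_fst, smul_snd]
    ring
  · intro h
    obtain ⟨x, y, hxy⟩ := v.2
    obtain ⟨x', y', hxy'⟩ := w.2
    have h1 : (x * w.1.1 + y * w.1.2) * v.1.1 = w.1.1 := by
      linear_combination w.1.1 * hxy + y * h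
    have h2 : (x * w.1.1 + y * w.1.2) * v.1.2 = w.1.2 := by
      linear_combination w.1.2 * hxy - x * h
    have hu : (x * w.1.1 + y * w.1.2) * (x' * v.1.1 + y' * v.1.2) = 1 := by
      linear_combination x' * h1 + y' * h2 + hxy'
    refine ⟨Units.mkOfMulEqOne _ _ hu, ?_⟩
    ext
    · exact h1
    · exact h2

/-- The action of units on unimodular pairs is free. -/
theorem smul_eq_self_iff (u : (ZMod N)ˣ) (v : Unimod N) : u • v = v ↔ u = 1 := by
  constructor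
  · intro h
    obtain ⟨x, y, hxy⟩ := v.2
    have h1 : (u : ZMod N) * v.1.1 = v.1.1 := congrArg (fun w : Unimod N => w.1.1) h
    have h2 : (u : ZMod N) * v.1.2 = v.1.2 := congrArg (fun w : Unimod N => w.1.2) h
    ext
    rw [Units.val_one]
    linear_combination x * h1 + y * h2 - ((u : ZMod N) - 1) * hxy
  · rintro rfl
    exact one_smul _ v

end Unimod

/-- The projective line over `ℤ/N`. -/
abbrev P1 (N : ℕ) : Type := MulAction.orbitRel.Quotient (ZMod N)ˣ (Unimod N)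

/-- The class of a unimodular pair. -/
def P1.mk {N : ℕ} (v : Unimod N) : P1 N := Quotient.mk'' v

theorem P1.mk_eq_mk_iff {N : ℕ} (v w : Unimod N) :
    P1.mk v = P1.mk w ↔ v.1.1 * w.1.2 = v.1.2 * w.1.1 := by
  rw [← Unimod.exists_smul_eq_iff]
  unfold P1.mk
  rw [Quotient.eq'', MulAction.orbitRel_apply, MulAction.mem_orbit_iff]
  constructor
  · rintro ⟨u, hu⟩
    exact ⟨u⁻¹, by rw [← hu, inv_smul_smul]⟩
  · rintro ⟨u, hu⟩
    exact ⟨u⁻¹, by rw [← hu, inv_smul_smul]⟩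

theorem P1.mk_surjective {N : ℕ} : Function.Surjective (P1.mk (N := N)) :=
  Quotient.mk''_surjective

/-- First column of `g ∈ SL(2,ℤ)` modulo `N`. -/
def colU (N : ℕ) (g : SL(2, ℤ)) : Unimod N :=
  ⟨(((g 0 0 : ℤ) : ZMod N), ((g 1 0 : ℤ) : ZMod N)),
    (Matrix.SpecialLinearGroup.isCoprime_col g 0).map (Int.castRingHom (ZMod N))⟩

@[simp] theorem colU_fst (N : ℕ) (g : SL(2, ℤ)) : (colU N g).1.1 = ((g 0 0 : ℤ) : ZMod N) := rfl
@[simp] theorem colU_snd (N : ℕ) (g : SL(2, ℤ)) : (colU N g).1.2 = ((g 1 0 : ℤ) : ZMod N) := rfl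

theorem colU_surjective (N : ℕ) [NeZero N] : Function.Surjective (colU N) := by
  rintro ⟨⟨a, c⟩, h⟩
  obtain ⟨g, h0, h1⟩ := exists_SL2_col_mod (N := N) h
  exact ⟨g, Unimod.ext h0 h1⟩

theorem inv_mul_mem_Gamma0_iff (N : ℕ) (g h : SL(2, ℤ)) :
    g⁻¹ * h ∈ Gamma0 N ↔ P1.mk (colU N g) = P1.mk (colU N h) := by
  rw [P1.mk_eq_mk_iff, Gamma0_mem]
  simp only [colU_fst, colU_snd]
  have : ((g⁻¹ * h : SL(2, ℤ)) 1 0 : ℤ) = g 0 0 * h 1 0 - g 1 0 * h 0 0 := by
    rw [Matrix.SpecialLinearGroup.coe_mul, Matrix.SpecialLinearGroup.coe_inv,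
      Matrix.adjugate_fin_two, Matrix.mul_apply, Fin.sum_univ_two]
    simp
    ring
  rw [this]
  push_cast
  rw [sub_eq_zero]

/-- The bijection `SL(2,ℤ) ⧸ Γ₀(N) ≃ P¹(ℤ/N)`, `gΓ₀(N) ↦ [first column of g]`. -/
noncomputable def cosetEquivP1 (N : ℕ) [NeZero N] : (SL(2, ℤ) ⧸ Gamma0 N) ≃ P1 N :=
  Equiv.ofBijective
    (Quotient.lift (fun g : SL(2, ℤ) => P1.mk (colU N g)) (by
      intro g h hgh
      exact (inv_mul_mem_Gamma0_iff N g h).mp (QuotientGroup.leftRel_apply.mp hgh)))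
    (by
      constructor
      · rintro ⟨g⟩ ⟨h⟩ hgh
        exact Quotient.sound (QuotientGroup.leftRel_apply.mpr
          ((inv_mul_mem_Gamma0_iff N g h).mpr hgh))
      · intro p
        obtain ⟨v, rfl⟩ := P1.mk_surjective p
        obtain ⟨g, rfl⟩ := colU_surjective N v
        exact ⟨QuotientGroup.mk g, rfl⟩)

@[simp] theorem cosetEquivP1_mk (N : ℕ) [NeZero N] (g : SL(2, ℤ)) :
    cosetEquivP1 N (QuotientGroup.mk g) = P1.mk (colU N g) := rfl

end Fermat.Agent.S20
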