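/-
S20 (B): the action of `SL(2,ℤ)` on `P¹(ℤ/N)` and equivariance of `SL(2,ℤ) ⧸ Γ₀(N) ≃ P¹(ℤ/N)`.
-/
import Mathlib
import Fermat.Agent.S20.Cosets.P1

set_option autoImplicit false

namespace Fermat.Agent.S20

open scoped MatrixGroups
open CongruenceSubgroup Matrix

variable {N : ℕ}

theorem det_cast_eq_one (N : ℕ) (g : SL(2, ℤ)) :
    ((g 0 0 : ℤ) : ZMod N) * ((g 1 1 : ℤ) : ZMod N) -
      ((g 0 1 : ℤ) : ZMod N) * ((g 1 0 : ℤ) : ZMod N) = 1 := by
  have h := g.det_coe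
  rw [Matrix.det_fin_two] at h
  have := congrArg (Int.cast : ℤ → ZMod N) h
  push_cast at this
  exact this

instance instSMulSLUnimod : SMul SL(2, ℤ) (Unimod N) where
  smul g v := ⟨(((g 0 0 : ℤ) : ZMod N) * v.1.1 + ((g 0 1 : ℤ) : ZMod N) * v.1.2,
      ((g 1 0 : ℤ) : ZMod N) * v.1.1 + ((g 1 1 : ℤ) : ZMod N) * v.1.2), by
    obtain ⟨x, y, hxy⟩ := v.2
    refine ⟨x * ((g 1 1 : ℤ) : ZMod N) - y * ((g 1 0 : ℤ) : ZMod N),
      -x * ((g 0 1 : ℤ) : ZMod N) + y * ((g 0 0 : ℤ) : ZMod N), ?_⟩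
    linear_combination (x * v.1.1 + y * v.1.2) * det_cast_eq_one N g + hxy⟩

@[simp] theorem SL_smul_fst (g : SL(2, ℤ)) (v : Unimod N) :
    (g • v).1.1 = ((g 0 0 : ℤ) : ZMod N) * v.1.1 + ((g 0 1 : ℤ) : ZMod N) * v.1.2 := rfl

@[simp] theorem SL_smul_snd (g : SL(2, ℤ)) (v : Unimod N) :
    (g • v).1.2 = ((g 1 0 : ℤ) : ZMod N) * v.1.1 + ((g 1 1 : ℤ) : ZMod N) * v.1.2 := rfl

theorem SL_mul_apply_cast (g h : SL(2, ℤ)) (i j : Fin 2) :
    (((g * h : SL(2, ℤ)) i j : ℤ) : ZMod N) =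
      ((g i 0 : ℤ) : ZMod N) * ((h 0 j : ℤ) : ZMod N) +
        ((g i 1 : ℤ) : ZMod N) * ((h 1 j : ℤ) : ZMod N) := by
  rw [Matrix.SpecialLinearGroup.coe_mul, Matrix.mul_apply, Fin.sum_univ_two]
  push_cast
  rfl

instance instMulActionSLUnimod : MulAction SL(2, ℤ) (Unimod N) where
  one_smul v := by
    ext <;> simp
  mul_smul g h v := by
    ext
    · simp only [SL_smul_fst, SL_smul_snd, SL_mul_apply_cast]
      ring
    · simp only [SL_smul_fst, SL_smul_snd, SL_mul_apply_cast]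
      ring

instance instSMulCommClassSLUnits : SMulCommClass SL(2, ℤ) (ZMod N)ˣ (Unimod N) where
  smul_comm g u v := by
    ext
    · simp only [SL_smul_fst, Unimod.smul_fst, Unimod.smul_snd]
      ring
    · simp only [SL_smul_snd, Unimod.smul_fst, Unimod.smul_snd]
      ring

theorem colU_mul (g h : SL(2, ℤ)) : colU N (g * h) = g • colU N h := by
  ext
  · simp only [colU_fst, SL_smul_fst, colU_snd, SL_mul_apply_cast]
  · simp only [colU_snd, SL_smul_snd, colU_fst, SL_mul_apply_cast]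

theorem P1.mk_smul_eq_of_eq (g : SL(2, ℤ)) {v w : Unimod N} (h : P1.mk v = P1.mk w) :
    P1.mk (g • v) = P1.mk (g • w) := by
  rw [P1.mk_eq_mk_iff] at h ⊢
  simp only [SL_smul_fst, SL_smul_snd]
  linear_combination (((g 0 0 : ℤ) : ZMod N) * ((g 1 1 : ℤ) : ZMod N) -
    ((g 0 1 : ℤ) : ZMod N) * ((g 1 0 : ℤ) : ZMod N)) * h

/-- The action of `SL(2,ℤ)` on `P¹(ℤ/N)`. -/
instance instSMulSLP1 : SMul SL(2, ℤ) (P1 N) where
  smul g := Quotient.lift (fun v : Unimod N => P1.mk (g • v))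
    (fun _ _ h => P1.mk_smul_eq_of_eq g (Quotient.sound h))

theorem P1.smul_mk (g : SL(2, ℤ)) (v : Unimod N) : g • P1.mk v = P1.mk (g • v) := rfl

instance instMulActionSLP1 : MulAction SL(2, ℤ) (P1 N) where
  one_smul p := by
    obtain ⟨v, rfl⟩ := P1.mk_surjective p
    rw [P1.smul_mk, one_smul]
  mul_smul g h p := by
    obtain ⟨v, rfl⟩ := P1.mk_surjective p
    rw [P1.smul_mk, P1.smul_mk, P1.smul_mk, mul_smul]

theorem cosetEquivP1_smul [NeZero N] (g : SL(2, ℤ)) (x : SL(2, ℤ) ⧸ Gamma0 N) :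
    cosetEquivP1 N (g • x) = g • cosetEquivP1 N x := by
  induction x using QuotientGroup.induction_on with
  | H h =>
    rw [MulAction.Quotient.smul_mk, cosetEquivP1_mk, cosetEquivP1_mk, P1.smul_mk, smul_eq_mul,
      colU_mul]

end Fermat.Agent.S20
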