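/-
S20 (B): arithmetic lemmas in `ℤ/N` for the classification of the `T`-orbits on `P¹(ℤ/N)`.
-/
import Mathlib

set_option autoImplicit false

namespace Fermat.Agent.S20

variable {N : ℕ}

/-- The kernel of `ℤ/N → ℤ/m` is generated by `m`. -/
theorem exists_eq_mul_of_castHom_eq_zero [NeZero N] {m : ℕ} (hm : m ∣ N) (x : ZMod N)
    (h : ZMod.castHom hm (ZMod m) x = 0) : ∃ y : ZMod N, x = (m : ZMod N) * y := by
  have hx : ((x.val : ℕ) : ZMod N) = x := ZMod.natCast_zmod_val x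
  rw [← hx, map_natCast, ZMod.natCast_eq_zero_iff] at h
  obtain ⟨t, ht⟩ := h
  refine ⟨(t : ZMod N), ?_⟩
  rw [← hx, ht]
  push_cast
  rfl

theorem castHom_natCast_self_mul {m : ℕ} (hm : m ∣ N) (y : ZMod N) :
    ZMod.castHom hm (ZMod m) ((m : ZMod N) * y) = 0 := by
  rw [map_mul, map_natCast, ZMod.natCast_self, zero_mul]

theorem natCast_mul_natCast_div_eq_zero {d : ℕ} (hd : d ∣ N) :
    ((d : ℕ) : ZMod N) * ((N / d : ℕ) : ZMod N) = 0 := by
  rw [← Nat.cast_mul, Nat.mul_div_cancel' hd, ZMod.natCast_self]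

/-- `castHom` towers compose. -/
theorem castHom_castHom {m n : ℕ} (hmn : m ∣ n) (hn : n ∣ N) (x : ZMod N) [NeZero N] :
    ZMod.castHom hmn (ZMod m) (ZMod.castHom hn (ZMod n) x) =
      ZMod.castHom (hmn.trans hn) (ZMod m) x := by
  have hx : ((x.val : ℕ) : ZMod N) = x := ZMod.natCast_zmod_val x
  rw [← hx, map_natCast, map_natCast, map_natCast]

/-- Every `c ∈ ℤ/N` is a unit multiple of `gcd(c, N)`. -/
theorem exists_unit_mul_eq_gcd [NeZero N] (c : ZMod N) :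
    ∃ w : (ZMod N)ˣ, (w : ZMod N) * c = ((Nat.gcd c.val N : ℕ) : ZMod N) := by
  set d := Nat.gcd c.val N with hd
  have hdpos : 0 < d := Nat.gcd_pos_of_pos_right _ (Nat.pos_of_ne_zero (NeZero.ne N))
  have hdN : d ∣ N := Nat.gcd_dvd_right _ _
  have hdc : d ∣ c.val := Nat.gcd_dvd_left _ _
  have hN₁ : N / d ∣ N := Nat.div_dvd_of_dvd hdN
  have hcop : (c.val / d).Coprime (N / d) := Nat.coprime_div_gcd_div_gcd hdpos
  obtain ⟨w, hw⟩ := ZMod.unitsMap_surjective hN₁ (ZMod.unitOfCoprime (c.val / d) hcop)⁻¹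
  refine ⟨w, ?_⟩
  have hc : c = ((d : ℕ) : ZMod N) * ((c.val / d : ℕ) : ZMod N) := by
    rw [← Nat.cast_mul, Nat.mul_div_cancel' hdc, ZMod.natCast_zmod_val]
  have hz : ZMod.castHom hN₁ (ZMod (N / d)) ((w : ZMod N) * ((c.val / d : ℕ) : ZMod N) - 1) = 0 := by
    rw [map_sub, map_mul, map_natCast, map_one]
    have h1 : ZMod.castHom hN₁ (ZMod (N / d)) (w : ZMod N) =
        ((ZMod.unitsMap hN₁ w : (ZMod (N / d))ˣ) : ZMod (N / d)) := by
      rw [ZMod.unitsMap_val, ZMod.castHom_apply]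
    rw [h1, hw, ← ZMod.coe_unitOfCoprime (c.val / d) hcop, Units.inv_mul, sub_self]
  obtain ⟨y, hy⟩ := exists_eq_mul_of_castHom_eq_zero hN₁ _ hz
  have key : (w : ZMod N) * c - ((d : ℕ) : ZMod N) =
      ((d : ℕ) : ZMod N) * ((w : ZMod N) * ((c.val / d : ℕ) : ZMod N) - 1) := by
    conv_lhs => rw [hc]
    ring
  rw [← sub_eq_zero, key, hy, ← mul_assoc, natCast_mul_natCast_div_eq_zero hdN, zero_mul]

/-- If `w d = d` in `ℤ/N` then `w ≡ 1 mod N/d`. -/
theorem castHom_eq_one_of_mul_eq [NeZero N] {d : ℕ} (hd : d ∣ N) (w : ZMod N)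
    (h : w * (d : ZMod N) = d) :
    ZMod.castHom (Nat.div_dvd_of_dvd hd) (ZMod (N / d)) w = 1 := by
  have hdpos : 0 < d := Nat.pos_of_dvd_of_pos hd (Nat.pos_of_ne_zero (NeZero.ne N))
  have hz : (w - 1) * (d : ZMod N) = 0 := by rw [sub_mul, h, one_mul, sub_self]
  have hx : (((w - 1).val : ℕ) : ZMod N) = w - 1 := ZMod.natCast_zmod_val _
  rw [← hx, ← Nat.cast_mul, ZMod.natCast_eq_zero_iff] at hz
  have h2 : N / d ∣ (w - 1).val := by
    apply Nat.dvd_of_mul_dvd_mul_right hdpos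
    rwa [Nat.div_mul_cancel hd]
  have h3 : ZMod.castHom (Nat.div_dvd_of_dvd hd) (ZMod (N / d)) (w - 1) = 0 := by
    rw [← hx, map_natCast, ZMod.natCast_eq_zero_iff]
    exact h2
  rw [map_sub, map_one, sub_eq_zero] at h3
  exact h3

/-- Two divisors of `N` that are unit multiples of each other in `ℤ/N` are equal. -/
theorem eq_of_natCast_eq_unit_mul {d d' : ℕ} (hd : d ∣ N) (hd' : d' ∣ N) (w : (ZMod N)ˣ)
    (h : (d' : ZMod N) = (w : ZMod N) * d) : d' = d := by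
  apply Nat.dvd_antisymm
  · -- reduce mod d'
    have h1 := congrArg (ZMod.castHom hd' (ZMod d')) h
    rw [map_natCast, ZMod.natCast_self, map_mul, map_natCast] at h1
    have hu : IsUnit (ZMod.castHom hd' (ZMod d') (w : ZMod N)) := w.isUnit.map _
    have h2 : ((d : ℕ) : ZMod d') = 0 := by
      have := hu.mul_right_eq_zero.mp h1.symm
      exact this
    exact (ZMod.natCast_eq_zero_iff _ _).mp h2
  · have h1 := congrArg (ZMod.castHom hd (ZMod d)) h
    rw [map_natCast, map_mul, map_natCast, ZMod.natCast_self, mul_zero] at h1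
    exact (ZMod.natCast_eq_zero_iff _ _).mp h1

/-- Key gluing step: if `a₁, a₂` are units mod `d` and agree mod `gcd(d, N/d)`, there is a unit
`w ≡ 1 mod N/d` of `ℤ/N` with `w a₁ ≡ a₂ mod d`. -/
theorem exists_unit_fix [NeZero N] {d : ℕ} (hd : d ∣ N) (a₁ a₂ : ZMod N)
    (h₁ : IsUnit (ZMod.castHom hd (ZMod d) a₁)) (h₂ : IsUnit (ZMod.castHom hd (ZMod d) a₂))
    (hg : ZMod.castHom ((Nat.gcd_dvd_left d (N / d)).trans hd) (ZMod (Nat.gcd d (N / d))) a₁ =
      ZMod.castHom ((Nat.gcd_dvd_left d (N / d)).trans hd) (ZMod (Nat.gcd d (N / d))) a₂) :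
    ∃ (w : (ZMod N)ˣ) (t : ZMod N),
      (w : ZMod N) * (d : ZMod N) = d ∧ (w : ZMod N) * a₁ = a₂ + (d : ZMod N) * t := by
  have hdpos : 0 < d := Nat.pos_of_dvd_of_pos hd (Nat.pos_of_ne_zero (NeZero.ne N))
  have : NeZero d := ⟨hdpos.ne'⟩
  have hN₁ : N / d ∣ N := Nat.div_dvd_of_dvd hd
  set g := Nat.gcd d (N / d) with hgdef
  have hgd : g ∣ d := Nat.gcd_dvd_left _ _
  obtain ⟨u₁, hu₁⟩ := h₁
  obtain ⟨u₂, hu₂⟩ := h₂
  -- the target residue mod `d`
  set x : ZMod d := ((u₂ * u₁⁻¹ : (ZMod d)ˣ) : ZMod d) with hx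
  have hxval : ((x.val : ℕ) : ZMod d) = x := ZMod.natCast_zmod_val x
  have hcompat : x.val ≡ 1 [MOD Nat.gcd d (N / d)] := by
    rw [← ZMod.natCast_eq_natCast_iff, Nat.cast_one]
    have h3 : ((x.val : ℕ) : ZMod g) = ZMod.castHom hgd (ZMod g) x := by
      rw [← hxval, map_natCast, hxval]
    rw [h3, hx]
    have h4 : ZMod.castHom hgd (ZMod g) (u₁ : ZMod d) = ZMod.castHom hgd (ZMod g) (u₂ : ZMod d) := by
      rw [hu₁, hu₂, castHom_castHom hgd hd, castHom_castHom hgd hd]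
      exact hg
    have h5 : ZMod.castHom hgd (ZMod g) ((u₁⁻¹ : (ZMod d)ˣ) : ZMod d) *
        ZMod.castHom hgd (ZMod g) (u₁ : ZMod d) = 1 := by
      rw [← map_mul, Units.inv_mul, map_one]
    rw [Units.val_mul, map_mul, ← h4, mul_comm]
    exact h5
  obtain ⟨k, hk₁, hk₂⟩ := Nat.chineseRemainder' hcompat
  have hkd : ((k : ℕ) : ZMod d) = x := by
    rw [← hxval]
    exact (ZMod.natCast_eq_natCast_iff _ _ _).mpr hk₁
  have hkN₁ : ((k : ℕ) : ZMod (N / d)) = 1 := by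
    rw [← Nat.cast_one]
    exact (ZMod.natCast_eq_natCast_iff _ _ _).mpr hk₂
  have hcop : k.Coprime N := by
    have h1 : k.Coprime d := by
      rw [← ZMod.isUnit_iff_coprime, hkd, hx]
      exact Units.isUnit _
    have h2 : k.Coprime (N / d) := by
      rw [← ZMod.isUnit_iff_coprime, hkN₁]
      exact isUnit_one
    have := Nat.Coprime.mul_right h1 h2
    rwa [Nat.mul_div_cancel' hd] at this
  refine ⟨ZMod.unitOfCoprime k hcop, ?_⟩
  rw [ZMod.coe_unitOfCoprime]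
  -- `k ≡ 1 mod N/d` gives `k d = d`
  have hfix : ((k : ℕ) : ZMod N) * (d : ZMod N) = d := by
    have hz : ZMod.castHom hN₁ (ZMod (N / d)) (((k : ℕ) : ZMod N) - 1) = 0 := by
      rw [map_sub, map_natCast, map_one, hkN₁, sub_self]
    obtain ⟨y, hy⟩ := exists_eq_mul_of_castHom_eq_zero hN₁ _ hz
    have : ((k : ℕ) : ZMod N) * (d : ZMod N) - d = (d : ZMod N) * (((k : ℕ) : ZMod N) - 1) := by ring
    rw [← sub_eq_zero, this, hy, ← mul_assoc, natCast_mul_natCast_div_eq_zero hd, zero_mul]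
  -- `k a₁ ≡ a₂ mod d`
  have hz : ZMod.castHom hd (ZMod d) (((k : ℕ) : ZMod N) * a₁ - a₂) = 0 := by
    rw [map_sub, map_mul, map_natCast, hkd, hx, ← hu₁, ← hu₂, Units.val_mul, mul_assoc,
      Units.inv_mul, mul_one, sub_self]
  obtain ⟨t, ht⟩ := exists_eq_mul_of_castHom_eq_zero hd _ hz
  exact ⟨t, hfix, by rw [← ht]; ring⟩

end Fermat.Agent.S20
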