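/-
S20 (B): the orbits of `T` on `P¹(ℤ/N)` (the cusps of `Γ₀(N)`): there are
`∑_{d ∣ N} φ(gcd(d, N/d))` of them.
-/
import Mathlib
import Fermat.Prelude.Def_ModularCurve_GenusNumerics
import Fermat.Agent.S20.Cosets.Action
import Fermat.Agent.S20.Cosets.CuspsAux

set_option autoImplicit false

namespace Fermat.Agent.S20

open scoped MatrixGroups
open CongruenceSubgroup Matrix

variable {N : ℕ}

theorem T_zpow_entries (k : ℤ) :
    ((ModularGroup.T ^ k : SL(2, ℤ)) 0 0 : ℤ) = 1 ∧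
      ((ModularGroup.T ^ k : SL(2, ℤ)) 0 1 : ℤ) = k ∧
      ((ModularGroup.T ^ k : SL(2, ℤ)) 1 0 : ℤ) = 0 ∧
      ((ModularGroup.T ^ k : SL(2, ℤ)) 1 1 : ℤ) = 1 := by
  have h := ModularGroup.coe_T_zpow k
  refine ⟨?_, ?_, ?_, ?_⟩
  · have := congrFun (congrFun h 0) 0
    simpa using this
  · have := congrFun (congrFun h 0) 1
    simpa using this
  · have := congrFun (congrFun h 1) 0
    simpa using this
  · have := congrFun (congrFun h 1) 1
    simpa using this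

theorem T_zpow_smul_fst (k : ℤ) (v : Unimod N) :
    ((ModularGroup.T ^ k : SL(2, ℤ)) • v).1.1 = v.1.1 + (k : ZMod N) * v.1.2 := by
  obtain ⟨h00, h01, -, -⟩ := T_zpow_entries k
  rw [SL_smul_fst, h00, h01, Int.cast_one, one_mul]

theorem T_zpow_smul_snd (k : ℤ) (v : Unimod N) :
    ((ModularGroup.T ^ k : SL(2, ℤ)) • v).1.2 = v.1.2 := by
  obtain ⟨-, -, h10, h11⟩ := T_zpow_entries k
  rw [SL_smul_snd, h10, h11, Int.cast_one, one_mul, Int.cast_zero, zero_mul, zero_add]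

theorem P1.mk_eq_mk_iff_exists (v w : Unimod N) :
    P1.mk v = P1.mk w ↔ ∃ u : (ZMod N)ˣ, u • v = w := by
  rw [P1.mk_eq_mk_iff, Unimod.exists_smul_eq_iff]

/-- The orbit relation of `⟨T⟩` on `P¹(ℤ/N)` in coordinates. -/
theorem orbitRel_T_mk_iff (v v' : Unimod N) :
    (MulAction.orbitRel (Subgroup.zpowers ModularGroup.T) (P1 N)) (P1.mk v) (P1.mk v') ↔
      ∃ (k : ℤ) (w : (ZMod N)ˣ), w • ((ModularGroup.T ^ k : SL(2, ℤ)) • v') = v := by
  rw [MulAction.orbitRel_apply, MulAction.mem_orbit_iff]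
  constructor
  · rintro ⟨⟨g, hg⟩, h⟩
    obtain ⟨k, rfl⟩ := Subgroup.mem_zpowers_iff.mp hg
    rw [Subgroup.smul_def, P1.smul_mk, P1.mk_eq_mk_iff_exists] at h
    exact ⟨k, h⟩
  · rintro ⟨k, w, h⟩
    refine ⟨⟨ModularGroup.T ^ k, Subgroup.zpow_mem_zpowers _ k⟩, ?_⟩
    rw [Subgroup.smul_def, P1.smul_mk, P1.mk_eq_mk_iff_exists]
    exact ⟨w, h⟩

/-- Index set for the cusps of `Γ₀(N)`. -/
abbrev CuspIdx (N : ℕ) : Type :=
  Σ d : {d : ℕ // d ∈ N.divisors}, (ZMod (Nat.gcd d (N / d)))ˣ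

theorem gcd_div_dvd_of_dvd {d : ℕ} (hd : d ∣ N) : Nat.gcd d (N / d) ∣ N :=
  (Nat.gcd_dvd_left d (N / d)).trans hd

/-- A chosen lift of a unit mod `gcd(d, N/d)` to a unit mod `N`. -/
noncomputable def unitLift (N : ℕ) [NeZero N] {d : ℕ} (hd : d ∣ N)
    (u : (ZMod (Nat.gcd d (N / d)))ˣ) : (ZMod N)ˣ :=
  (ZMod.unitsMap_surjective (gcd_div_dvd_of_dvd hd) u).choose

theorem castHom_unitLift [NeZero N] {d : ℕ} (hd : d ∣ N) (u : (ZMod (Nat.gcd d (N / d)))ˣ) :
    ZMod.castHom (gcd_div_dvd_of_dvd hd) (ZMod (Nat.gcd d (N / d))) (unitLift N hd u : ZMod N) =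
      (u : ZMod (Nat.gcd d (N / d))) := by
  have h := (ZMod.unitsMap_surjective (gcd_div_dvd_of_dvd hd) u).choose_spec
  have h1 := congrArg (fun x : (ZMod (Nat.gcd d (N / d)))ˣ => (x : ZMod (Nat.gcd d (N / d)))) h
  simp only [ZMod.unitsMap_val] at h1
  rw [ZMod.castHom_apply]
  exact h1

/-- The standard representative `(ŵ : d)` of a cusp. -/
def cuspRep (N : ℕ) (w : (ZMod N)ˣ) (d : ℕ) : Unimod N :=
  ⟨((w : ZMod N), (d : ZMod N)), ⟨((w⁻¹ : (ZMod N)ˣ) : ZMod N), 0, by simp⟩⟩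

@[simp] theorem cuspRep_fst (w : (ZMod N)ˣ) (d : ℕ) : (cuspRep N w d).1.1 = (w : ZMod N) := rfl
@[simp] theorem cuspRep_snd (w : (ZMod N)ˣ) (d : ℕ) : (cuspRep N w d).1.2 = (d : ZMod N) := rfl

/-- The parametrisation of the cusps. -/
noncomputable def cuspMap (N : ℕ) [NeZero N] :
    CuspIdx N → MulAction.orbitRel.Quotient (Subgroup.zpowers ModularGroup.T) (P1 N) :=
  fun x => Quotient.mk'' (P1.mk (cuspRep N (unitLift N (Nat.dvd_of_mem_divisors x.1.2) x.2) x.1.1))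

theorem cuspMap_injective (N : ℕ) [NeZero N] : Function.Injective (cuspMap N) := by
  rintro ⟨⟨d, hd⟩, u⟩ ⟨⟨d', hd'⟩, u'⟩ h
  have hdN := Nat.dvd_of_mem_divisors hd
  have hdN' := Nat.dvd_of_mem_divisors hd'
  unfold cuspMap at h
  rw [Quotient.eq''] at h
  have h' := (orbitRel_T_mk_iff _ _).mp h
  obtain ⟨k, w, hw⟩ := h'
  have h1 := congrArg (fun v : Unimod N => v.1.1) hw
  have h2 := congrArg (fun v : Unimod N => v.1.2) hw
  simp only [Unimod.smul_fst, Unimod.smul_snd, T_zpow_smul_fst, T_zpow_smul_snd, cuspRep_fst,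
    cuspRep_snd] at h1 h2
  have hdd : d = d' := eq_of_natCast_eq_unit_mul hdN' hdN w h2.symm
  subst hdd
  have hw1 : ZMod.castHom (Nat.div_dvd_of_dvd hdN) (ZMod (N / d)) (w : ZMod N) = 1 :=
    castHom_eq_one_of_mul_eq hdN _ h2
  have hg2 : Nat.gcd d (N / d) ∣ N / d := Nat.gcd_dvd_right _ _
  have hg1 : Nat.gcd d (N / d) ∣ d := Nat.gcd_dvd_left _ _
  have hwg : ZMod.castHom (gcd_div_dvd_of_dvd hdN) (ZMod (Nat.gcd d (N / d))) (w : ZMod N) = 1 := by
    rw [← castHom_castHom hg2 (Nat.div_dvd_of_dvd hdN), hw1, map_one]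
  have h3 := congrArg (ZMod.castHom (gcd_div_dvd_of_dvd hdN) (ZMod (Nat.gcd d (N / d)))) h1
  rw [map_mul, map_add, map_mul, map_natCast, (ZMod.natCast_eq_zero_iff _ _).mpr hg1, mul_zero,
    add_zero, hwg, one_mul, castHom_unitLift, castHom_unitLift] at h3
  have huu : u = u' := Units.ext h3.symm
  subst huu
  rfl

theorem cuspMap_surjective (N : ℕ) [NeZero N] : Function.Surjective (cuspMap N) := by
  intro q
  obtain ⟨p, rfl⟩ := Quotient.mk''_surjective q
  obtain ⟨v, rfl⟩ := P1.mk_surjective p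
  obtain ⟨⟨a, c⟩, hac⟩ := v
  obtain ⟨w, hw⟩ := exists_unit_mul_eq_gcd c
  have hdN : Nat.gcd c.val N ∣ N := Nat.gcd_dvd_right _ _
  have hdmem : Nat.gcd c.val N ∈ N.divisors := Nat.mem_divisors.mpr ⟨hdN, NeZero.ne N⟩
  generalize Nat.gcd c.val N = d at hw hdN hdmem
  have hac' : IsCoprime a c := hac
  have hcop : IsCoprime ((w : ZMod N) * a) ((d : ℕ) : ZMod N) := by
    rw [← hw]
    exact (isCoprime_mul_unit_left w.isUnit _ _).mpr hac'
  have hunit_d : IsUnit (ZMod.castHom hdN (ZMod d) ((w : ZMod N) * a)) := by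
    have := hcop.map (ZMod.castHom hdN (ZMod d))
    rw [map_natCast, ZMod.natCast_self, isCoprime_zero_right] at this
    exact this
  have hg1 : Nat.gcd d (N / d) ∣ d := Nat.gcd_dvd_left _ _
  have hunit_g : IsUnit (ZMod.castHom (gcd_div_dvd_of_dvd hdN) (ZMod (Nat.gcd d (N / d)))
      ((w : ZMod N) * a)) := by
    have := hcop.map (ZMod.castHom (gcd_div_dvd_of_dvd hdN) (ZMod (Nat.gcd d (N / d))))
    rw [map_natCast, (ZMod.natCast_eq_zero_iff _ _).mpr hg1, isCoprime_zero_right] at this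
    exact this
  obtain ⟨u, hu⟩ := hunit_g
  refine ⟨⟨⟨d, hdmem⟩, u⟩, ?_⟩
  unfold cuspMap
  rw [Quotient.eq'']
  refine (orbitRel_T_mk_iff _ _).mpr ?_
  have hunit_lift : IsUnit (ZMod.castHom hdN (ZMod d) (unitLift N hdN u : ZMod N)) :=
    (unitLift N hdN u).isUnit.map _
  obtain ⟨w₂, t, hw₂d, hw₂a⟩ := exists_unit_fix hdN ((w : ZMod N) * a)
    (unitLift N hdN u : ZMod N) hunit_d hunit_lift (by rw [castHom_unitLift, hu])
  refine ⟨-(t.val : ℤ), w₂ * w, ?_⟩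
  have htv : (((-(t.val : ℤ) : ℤ)) : ZMod N) = -t := by
    rw [Int.cast_neg, Int.cast_natCast, ZMod.natCast_zmod_val]
  ext
  · simp only [Unimod.smul_fst, T_zpow_smul_fst, cuspRep_fst, htv, Units.val_mul]
    linear_combination hw₂a - t * hw₂d - (w₂ : ZMod N) * t * hw
  · simp only [Unimod.smul_snd, T_zpow_smul_snd, cuspRep_snd, Units.val_mul]
    linear_combination hw₂d + (w₂ : ZMod N) * hw

theorem card_cuspIdx (N : ℕ) [NeZero N] : Nat.card (CuspIdx N) = ModularCurve.cuspCount N := by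
  have : ∀ a : {d : ℕ // d ∈ N.divisors}, NeZero (Nat.gcd a (N / a)) := fun a =>
    ⟨(Nat.gcd_pos_of_pos_left _ (Nat.pos_of_mem_divisors a.2)).ne'⟩
  rw [Nat.card_sigma]
  unfold ModularCurve.cuspCount
  rw [← Finset.sum_coe_sort N.divisors (fun d => Nat.totient (Nat.gcd d (N / d)))]
  refine Finset.sum_congr rfl (fun a _ => ?_)
  rw [Nat.card_eq_fintype_card, ZMod.card_units_eq_totient]

theorem card_orbits_T_P1 (N : ℕ) [NeZero N] :
    Nat.card (MulAction.orbitRel.Quotient (Subgroup.zpowers ModularGroup.T) (P1 N)) =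
      ModularCurve.cuspCount N := by
  rw [← card_cuspIdx N]
  exact (Nat.card_congr
    (Equiv.ofBijective (cuspMap N) ⟨cuspMap_injective N, cuspMap_surjective N⟩)).symm

theorem sub_smul_coset (g : Subgroup.zpowers ModularGroup.T) (b : SL(2, ℤ) ⧸ Gamma0 N) :
    g • b = (g : SL(2, ℤ)) • b := by
  induction b using QuotientGroup.induction_on with
  | H h => rfl

/-- Transfer of the `T`-orbits from the coset space to `P¹(ℤ/N)`. -/
noncomputable def orbitsEquivP1 (N : ℕ) [NeZero N] :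
    MulAction.orbitRel.Quotient (Subgroup.zpowers ModularGroup.T) (SL(2, ℤ) ⧸ Gamma0 N) ≃
      MulAction.orbitRel.Quotient (Subgroup.zpowers ModularGroup.T) (P1 N) :=
  Quotient.congr (cosetEquivP1 N) (by
    intro a b
    rw [MulAction.orbitRel_apply, MulAction.orbitRel_apply, MulAction.mem_orbit_iff,
      MulAction.mem_orbit_iff]
    constructor
    · rintro ⟨g, rfl⟩
      exact ⟨g, by rw [Subgroup.smul_def, sub_smul_coset, cosetEquivP1_smul]⟩
    · rintro ⟨g, hg⟩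
      refine ⟨g, (cosetEquivP1 N).injective ?_⟩
      rw [sub_smul_coset, cosetEquivP1_smul, ← Subgroup.smul_def]
      exact hg)

theorem card_orbits_T_aux (N : ℕ) [NeZero N] :
    Nat.card (MulAction.orbitRel.Quotient (Subgroup.zpowers ModularGroup.T)
      (SL(2, ℤ) ⧸ Gamma0 N)) = ModularCurve.cuspCount N := by
  rw [Nat.card_congr (orbitsEquivP1 N), card_orbits_T_P1]

end Fermat.Agent.S20
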