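/-
S20 (B): fixed points of `S` and `S * T` on `SL(2,ℤ) ⧸ Γ₀(N)`.
-/
import Mathlib
import Fermat.Agent.S20.Cosets.Action

set_option autoImplicit false

namespace Fermat.Agent.S20

open scoped MatrixGroups
open CongruenceSubgroup Matrix

variable {N : ℕ}

/-- Transport of fixed points along the equivariant bijection. -/
noncomputable def fixedByEquivP1 (N : ℕ) [NeZero N] (g : SL(2, ℤ)) :
    MulAction.fixedBy (SL(2, ℤ) ⧸ Gamma0 N) g ≃ MulAction.fixedBy (P1 N) g :=
  (cosetEquivP1 N).subtypeEquiv (fun x => by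
    rw [MulAction.mem_fixedBy, MulAction.mem_fixedBy, ← cosetEquivP1_smul,
      (cosetEquivP1 N).apply_eq_iff_eq])

/-- The affine point `(x : 1)`. -/
def P1.affine (x : ZMod N) : P1 N := P1.mk ⟨(x, 1), isCoprime_one_right⟩

theorem P1.affine_injective : Function.Injective (P1.affine (N := N)) := by
  intro x y h
  unfold P1.affine at h
  rw [P1.mk_eq_mk_iff] at h
  simpa using h

theorem S_entries : ((ModularGroup.S 0 0 : ℤ) = 0) ∧ ((ModularGroup.S 0 1 : ℤ) = -1) ∧
    ((ModularGroup.S 1 0 : ℤ) = 1) ∧ ((ModularGroup.S 1 1 : ℤ) = 0) := by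
  rw [ModularGroup.coe_S]
  simp

theorem ST_entries : (((ModularGroup.S * ModularGroup.T : SL(2, ℤ)) 0 0 : ℤ) = 0) ∧
    (((ModularGroup.S * ModularGroup.T : SL(2, ℤ)) 0 1 : ℤ) = -1) ∧
    (((ModularGroup.S * ModularGroup.T : SL(2, ℤ)) 1 0 : ℤ) = 1) ∧
    (((ModularGroup.S * ModularGroup.T : SL(2, ℤ)) 1 1 : ℤ) = 1) := by
  rw [Matrix.SpecialLinearGroup.coe_mul, ModularGroup.coe_S, ModularGroup.coe_T]
  simp [Matrix.mul_apply, Fin.sum_univ_two]

theorem S_smul_mk_eq_iff (v : Unimod N) :
    ModularGroup.S • P1.mk v = P1.mk v ↔ v.1.1 ^ 2 + v.1.2 ^ 2 = 0 := by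
  rw [P1.smul_mk, P1.mk_eq_mk_iff]
  obtain ⟨h00, h01, h10, h11⟩ := S_entries
  simp only [SL_smul_fst, SL_smul_snd, h00, h01, h10, h11]
  push_cast
  constructor
  · intro h
    linear_combination -h
  · intro h
    linear_combination -h

theorem ST_smul_mk_eq_iff (v : Unimod N) :
    (ModularGroup.S * ModularGroup.T) • P1.mk v = P1.mk v ↔
      v.1.1 ^ 2 + v.1.1 * v.1.2 + v.1.2 ^ 2 = 0 := by
  rw [P1.smul_mk, P1.mk_eq_mk_iff]
  obtain ⟨h00, h01, h10, h11⟩ := ST_entries
  simp only [SL_smul_fst, SL_smul_snd, h00, h01, h10, h11]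
  push_cast
  constructor
  · intro h
    linear_combination -h
  · intro h
    linear_combination -h

/-- Fixed points of `S` on `P¹(ℤ/N)` are the `(x : 1)` with `x² + 1 = 0`. -/
noncomputable def fixedBySEquiv (N : ℕ) :
    {x : ZMod N // x ^ 2 + 1 = 0} ≃ MulAction.fixedBy (P1 N) ModularGroup.S :=
  Equiv.ofBijective
    (fun x => ⟨P1.affine x.1, by
      rw [MulAction.mem_fixedBy]
      unfold P1.affine
      rw [S_smul_mk_eq_iff]
      simpa using x.2⟩)
    (by
      constructor
      · intro x y h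
        exact Subtype.ext (P1.affine_injective (congrArg Subtype.val h))
      · rintro ⟨p, hp⟩
        obtain ⟨v, rfl⟩ := P1.mk_surjective p
        rw [MulAction.mem_fixedBy, S_smul_mk_eq_iff] at hp
        obtain ⟨x, y, hxy⟩ := v.2
        set a := v.1.1 with ha
        set c := v.1.2 with hc
        set ci := -x ^ 2 * c + 2 * x * y * a + y ^ 2 * c with hci
        have hcci : c * ci = 1 := by
          rw [hci]
          linear_combination (x * a + y * c + 1) * hxy - x ^ 2 * hp
        refine ⟨⟨a * ci, ?_⟩, ?_⟩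
        · linear_combination ci ^ 2 * hp - (c * ci + 1) * hcci
        · apply Subtype.ext
          show P1.affine (a * ci) = P1.mk v
          unfold P1.affine
          rw [P1.mk_eq_mk_iff]
          show a * ci * c = 1 * a
          linear_combination a * hcci)

/-- Fixed points of `S * T` on `P¹(ℤ/N)` are the `(x : 1)` with `x² + x + 1 = 0`. -/
noncomputable def fixedBySTEquiv (N : ℕ) :
    {x : ZMod N // x ^ 2 + x + 1 = 0} ≃
      MulAction.fixedBy (P1 N) (ModularGroup.S * ModularGroup.T) :=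
  Equiv.ofBijective
    (fun x => ⟨P1.affine x.1, by
      rw [MulAction.mem_fixedBy]
      unfold P1.affine
      rw [ST_smul_mk_eq_iff]
      simpa using x.2⟩)
    (by
      constructor
      · intro x y h
        exact Subtype.ext (P1.affine_injective (congrArg Subtype.val h))
      · rintro ⟨p, hp⟩
        obtain ⟨v, rfl⟩ := P1.mk_surjective p
        rw [MulAction.mem_fixedBy, ST_smul_mk_eq_iff] at hp
        obtain ⟨x, y, hxy⟩ := v.2
        set a := v.1.1 with ha
        set c := v.1.2 with hc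
        set ci := -x ^ 2 * a - x ^ 2 * c + 2 * x * y * a + y ^ 2 * c with hci
        have hcci : c * ci = 1 := by
          rw [hci]
          linear_combination (x * a + y * c + 1) * hxy - x ^ 2 * hp
        refine ⟨⟨a * ci, ?_⟩, ?_⟩
        · linear_combination ci ^ 2 * hp - (a * ci + c * ci + 1) * hcci
        · apply Subtype.ext
          show P1.affine (a * ci) = P1.mk v
          unfold P1.affine
          rw [P1.mk_eq_mk_iff]
          show a * ci * c = 1 * a
          linear_combination a * hcci)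

theorem card_fixedBy_S_aux (N : ℕ) [NeZero N] :
    Nat.card (MulAction.fixedBy (SL(2, ℤ) ⧸ Gamma0 N) ModularGroup.S) =
      Nat.card {x : ZMod N // x ^ 2 + 1 = 0} :=
  Nat.card_congr ((fixedByEquivP1 N _).trans (fixedBySEquiv N).symm)

theorem card_fixedBy_ST_aux (N : ℕ) [NeZero N] :
    Nat.card (MulAction.fixedBy (SL(2, ℤ) ⧸ Gamma0 N) (ModularGroup.S * ModularGroup.T)) =
      Nat.card {x : ZMod N // x ^ 2 + x + 1 = 0} :=
  Nat.card_congr ((fixedByEquivP1 N _).trans (fixedBySTEquiv N).symm)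

end Fermat.Agent.S20
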